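import Fermat.Agent.S23.Defs
import Fermat.Agent.S22.HeckeCompat
import Fermat.Agent.S22.Algebra

/-!
# S23 / (5-ii): the period lattice is stable under the Hecke algebra  (OWNER: helper9)  PROVED

Bridge between the S22 period lattice (weight `(0 : ℕ) + 2`, Eichler integral `E` with
`D E = f`, `D = (2πi)⁻¹ d/dz`) and the S21 / prelude periods (`F' = f`):
`Fermat.Agent.S22.eichler N 0 f = (2πi) • F` for `F` any `HasEquivariantPrimitive N f F`
(both are holomorphic with the same derivative and tend to `0` at `i∞`: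
`Fermat.Agent.S22.exists_const_of_D_eq_zero`), hence
`periodLin N 0 γ 0 f = 2πi * periodMap N f γ` (`periodVec_eq_of`, `es_periodMap_apply`;
for `w = 0`: `(E ∣[-(0:ℤ)] γ) z = E (γ • z)` and `polyEval c z = c 0`).
So `Fermat.Agent.S22.periodLattice N 0 = (2πi) • perLattice N` and
`Fermat.Agent.S22.periodLattice_stable N 0 ∅` + `comp_mem_of_mem_adjoin` give the claim.
(`CuspForm (Gamma0 N) (((0 : ℕ) : ℤ) + 2)` and `CuspForm (Gamma0 N) 2` are definitionally equal.)

Statements FROZEN; prefix extra names with `br_`.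
-/

set_option autoImplicit false

namespace Fermat.Agent.S23

open CongruenceSubgroup ModularCurve ModularCurve.Period UpperHalfPlane
open scoped MatrixGroups

open Fermat.Agent.S21 Fermat.Agent.S22 in
/-- Bridge between the S22 Eichler integral (weight `0 + 2`) and the S21 equivariant primitive. -/
theorem br_eichler_eq (N : ℕ) [NeZero N] (f : CuspForm (Gamma0 N) 2) {F : ℍ → ℂ}
    (hF : HasEquivariantPrimitive N f F) :
    eichler N 0 f = (2 * (Real.pi : ℂ) * Complex.I) • F := by
  have hE := eichler_spec N 0 f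
  refine IsEichler.unique hE ⟨?_, ?_, ?_⟩
  · exact (per_mdiff_of_hasDerivAt hF.1).const_smul _
  · rw [Function.iterate_one,
      Derivative.normalizedDerivOfComplex_smul _ _ (per_mdiff_of_hasDerivAt hF.1),
      per_D_of_hasDerivAt hF.1, smul_smul, mul_inv_cancel₀ per_two_pi_I_ne_zero, one_smul]
  · have := hF.2.1.const_smul (2 * (Real.pi : ℂ) * Complex.I)
    rw [smul_zero] at this
    exact this

open Fermat.Agent.S21 Fermat.Agent.S22 in
/-- The S22 period functional (weight index `w = 0`) is `2πi` times the S21 period functional. -/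
theorem bridge_periodLin (N : ℕ) [NeZero N] (γ : Gamma0 N) (f : CuspForm (Gamma0 N) 2) :
    Fermat.Agent.S22.periodLin N 0 γ 0 f
      = 2 * (Real.pi : ℂ) * Complex.I * perFun N γ f := by
  obtain ⟨F, hF⟩ := es_exists_primitive N f
  rw [periodLin_apply, perFun_apply]
  have h1 := periodVec_spec N 0 f γ UpperHalfPlane.I
  rw [br_eichler_eq N f hF] at h1
  rw [es_periodMap_apply N f hF γ UpperHalfPlane.I]
  have h2 : polyEval (periodVec N 0 f γ) (UpperHalfPlane.I : ℂ) = periodVec N 0 f γ 0 := by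
    simp [polyEval]
  rw [h2] at h1
  rw [← h1, ModularForm.SL_slash_apply]
  simp
  ring

/-- Multiplication by `(2πi)⁻¹` on the dual. -/
noncomputable def brScale (N : ℕ) :
    Module.Dual ℂ (CuspForm (Gamma0 N) 2) →ₗ[ℤ] Module.Dual ℂ (CuspForm (Gamma0 N) 2) where
  toFun φ := (2 * (Real.pi : ℂ) * Complex.I)⁻¹ • φ
  map_add' φ ψ := smul_add _ φ ψ
  map_smul' n φ := by
    simp only [eq_intCast, Int.cast_id]
    rw [smul_comm]

theorem br_scale_periodLin (N : ℕ) [NeZero N] (γ : Gamma0 N) (i : Fin (0 + 1)) :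
    brScale N (Fermat.Agent.S22.periodLin N 0 γ i) = perFun N γ := by
  obtain rfl : i = 0 := by
    apply Fin.ext
    have := i.2
    simp only [Fin.val_zero]
    omega
  apply LinearMap.ext
  intro f
  show (2 * (Real.pi : ℂ) * Complex.I)⁻¹ • (Fermat.Agent.S22.periodLin N 0 γ 0 f) = _
  rw [bridge_periodLin, smul_eq_mul, ← mul_assoc,
    inv_mul_cancel₀ Fermat.Agent.S21.per_two_pi_I_ne_zero, one_mul]

theorem br_map_periodLattice (N : ℕ) [NeZero N] :
    Submodule.map (brScale N) (Fermat.Agent.S22.periodLattice N 0) = perLattice N := by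
  rw [Fermat.Agent.S22.periodLattice, Submodule.map_span, perLattice]
  congr 1
  ext φ
  constructor
  · rintro ⟨_, ⟨⟨γ, i⟩, rfl⟩, rfl⟩
    exact ⟨γ, (br_scale_periodLin N γ i).symm⟩
  · rintro ⟨γ, rfl⟩
    exact ⟨_, ⟨(γ, 0), rfl⟩, br_scale_periodLin N γ 0⟩

/-- The period lattice is stable under the Hecke algebra. -/
theorem perLattice_stable (N : ℕ) [NeZero N] (t : Module.End ℂ (CuspForm (Gamma0 N) 2))
    (ht : t ∈ hecke N) (φ : Module.Dual ℂ (CuspForm (Gamma0 N) 2)) (hφ : φ ∈ perLattice N) :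
    φ ∘ₗ t ∈ perLattice N := by
  refine Fermat.Agent.S22.comp_mem_of_mem_adjoin (CuspForm.heckeGenerators N 2 ∅) (perLattice N)
    ?_ ht φ hφ
  intro T hT ψ hψ
  rw [← br_map_periodLattice] at hψ ⊢
  obtain ⟨ψ₀, hψ₀, rfl⟩ := hψ
  refine ⟨ψ₀ ∘ₗ T, Fermat.Agent.S22.periodLattice_stable N 0 ∅ T hT ψ₀ hψ₀, ?_⟩
  apply LinearMap.ext
  intro f
  rfl

end Fermat.Agent.S23
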