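import Fermat.Agent.S23.Defs

/-!
# S23 / (4a-i): from `ℝ`-independence to `ℂ`-independence  (OWNER: see `s23_modules`)

Pure algebra.  Let `∑ i, z i • b i = 0` with `z i ∈ ℂ` (`Fintype.linearIndependent_iff`).
Applying `c ∘ · ∘ c` and `hcomm`, `hc_smul`, `hc_inv` gives `∑ i, conj (z i) • b i = 0`.
Adding / subtracting: `∑ i, (z i).re • b i = 0` and `∑ i, (z i).im • b i = 0`; so
`(z i).re = 0 = (z i).im` by `hb`.

Statement FROZEN; prefix extra names with `ca_`.
-/

set_option autoImplicit false

namespace Fermat.Agent.S23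

theorem complexIndep_of_realIndep {V : Type*} [AddCommGroup V] [Module ℂ V]
    (c : V → V) (hc_add : ∀ f g, c (f + g) = c f + c g)
    (hc_smul : ∀ (a : ℂ) (f : V), c (a • f) = (starRingEnd ℂ a) • c f)
    (hc_inv : ∀ f, c (c f) = f)
    {r : ℕ} (b : Fin r → Module.End ℂ V) (hcomm : ∀ i f, c (b i f) = b i (c f))
    (hb : RealIndep b) : LinearIndependent ℂ b := by
  classical
  rw [Fintype.linearIndependent_iff]
  intro z hz
  let C : V →+ V := AddMonoidHom.mk' c hc_add
  have hC : ∀ f, C f = c f := fun _ => rfl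
  -- the conjugate relation
  have hz' : ∑ i, (starRingEnd ℂ (z i)) • b i = 0 := by
    apply LinearMap.ext
    intro f
    have h1 : (∑ i, z i • b i) (c f) = 0 := by rw [hz]; rfl
    rw [LinearMap.sum_apply] at h1
    have h2 : C (∑ i, (z i • b i) (c f)) = 0 := by rw [h1, map_zero]
    rw [map_sum] at h2
    rw [LinearMap.sum_apply, LinearMap.zero_apply, ← h2]
    refine Finset.sum_congr rfl fun i _ => ?_
    rw [hC, LinearMap.smul_apply, LinearMap.smul_apply, hc_smul, hcomm, hc_inv]
  have hre : ∑ i, (((z i).re : ℝ) : ℂ) • b i = 0 := by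
    have h3 : ∑ i, (z i + starRingEnd ℂ (z i)) • b i = 0 := by
      simp only [add_smul, Finset.sum_add_distrib, hz, hz', add_zero]
    have h4 : ∀ i, (((z i).re : ℝ) : ℂ) • b i
        = (2 : ℂ)⁻¹ • ((z i + starRingEnd ℂ (z i)) • b i) := by
      intro i
      rw [smul_smul, Complex.add_conj]
      congr 1
      push_cast
      ring
    rw [Finset.sum_congr rfl fun i _ => h4 i, ← Finset.smul_sum, h3, smul_zero]
  have him : ∑ i, (((z i).im : ℝ) : ℂ) • b i = 0 := by
    have h3 : ∑ i, (z i - starRingEnd ℂ (z i)) • b i = 0 := by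
      simp only [sub_smul, Finset.sum_sub_distrib, hz, hz', sub_zero]
    have h4 : ∀ i, (((z i).im : ℝ) : ℂ) • b i
        = (2 * Complex.I)⁻¹ • ((z i - starRingEnd ℂ (z i)) • b i) := by
      intro i
      rw [smul_smul, Complex.sub_conj]
      congr 1
      have : (2 : ℂ) * Complex.I ≠ 0 := mul_ne_zero two_ne_zero Complex.I_ne_zero
      field_simp
      push_cast
      ring
    rw [Finset.sum_congr rfl fun i _ => h4 i, ← Finset.smul_sum, h3, smul_zero]
  intro i
  apply Complex.ext
  · simpa using hb (fun i => (z i).re) hre i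
  · simpa using hb (fun i => (z i).im) him i

end Fermat.Agent.S23
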