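import Fermat.Agent.S23.Defs
import Fermat.Prelude.Thm_ModularFormClass_qCoeff_heckeT
import Fermat.Prelude.Thm_ModularFormClass_qCoeff_heckeU
import Fermat.Prelude.Thm_UpperHalfPlane_eq_of_forall_qCoeff_eq

/-!
# S23 / (1) + (2): `q`-coefficients through the Hecke algebra  (OWNER: see `s23_modules`)

`coeff_hecke`: by strong induction on `n`.  `n = 1`: `t = 1`.  `n > 1`: let `p = n.minFac`,
`n = m * p`.  If `p ∤ N`: `qCoeff (T_p g) m = qCoeff g (m * p) + [p ∣ m] p * qCoeff g (m / p)`
(prelude `ModularFormClass.qCoeff_heckeT`, `ModularForm.coeffHeckeT`, weight `2`), so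
`t_n = t_m * T_p - [p ∣ m] p • t_{m/p}`.  If `p ∣ N`: `qCoeff (U_p g) m = qCoeff g (m * p)`
(`qCoeff_heckeU`), so `t_n = t_m * U_p`.  (`⇑(heckeTLin 2 hp hpN f) = heckeT 2 p ⇑f` is `rfl`,
`CuspForm.coe_heckeTLin_apply`.)

`coeff_zero`: cusp forms vanish at `i∞` (`CuspFormClass.qExpansion_coeff_zero`).
`coeff_ext`: prelude `UpperHalfPlane.eq_of_forall_qCoeff_eq` or Mathlib
`ModularFormClass.qExpansion_eq_zero_iff`.

Statements FROZEN; prefix extra names with `cf_`.
-/

set_option autoImplicit false

namespace Fermat.Agent.S23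

open CongruenceSubgroup UpperHalfPlane
open scoped MatrixGroups

lemma cf_qCoeff_T (N : ℕ) [NeZero N] {p : ℕ} (hp : p.Prime) (hpN : ¬ p ∣ N)
    (f : CuspForm (Gamma0 N) 2) (m : ℕ) :
    ModularFormClass.qCoeff (CuspForm.heckeTLin 2 hp hpN f) m
      = ModularFormClass.qCoeff f (m * p)
        + if p ∣ m then (p : ℂ) * ModularFormClass.qCoeff f (m / p) else 0 := by
  have h := ModularFormClass.qCoeff_heckeT (k := 2) f (one_mem_strictPeriods N) hp.ne_zero m
  rw [ModularForm.coeffHeckeT_apply] at h
  rw [CuspForm.coe_heckeTLin_apply, h]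
  norm_num

lemma cf_qCoeff_U (N : ℕ) [NeZero N] {p : ℕ} (hp : p.Prime) (hpN : p ∣ N)
    (f : CuspForm (Gamma0 N) 2) (m : ℕ) :
    ModularFormClass.qCoeff (CuspForm.heckeULin 2 hpN f) m
      = ModularFormClass.qCoeff f (m * p) := by
  have h := ModularFormClass.qCoeff_heckeU (k := 2) f (one_mem_strictPeriods N) hp.ne_zero m
  rw [ModularForm.coeffHeckeU_apply] at h
  rw [CuspForm.coe_heckeULin_apply, h]

/-- Every `q`-coefficient `a_n`, `n ≥ 1`, is the first coefficient of a Hecke translate. -/
theorem coeff_hecke (N : ℕ) [NeZero N] (n : ℕ) (hn : 1 ≤ n) :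
    ∃ t ∈ hecke N, ∀ f : CuspForm (Gamma0 N) 2, ModularFormClass.qCoeff f n = a1 N (t f) := by
  induction n using Nat.strong_induction_on with
  | _ n ih =>
    rcases Nat.eq_or_lt_of_le hn with h1 | h1
    · subst h1
      exact ⟨1, Subalgebra.one_mem _, fun f => rfl⟩
    · -- `n > 1`
      have hn1 : n ≠ 1 := by omega
      have hp : (n.minFac).Prime := Nat.minFac_prime hn1
      set p := n.minFac with hpdef
      have hpn : p ∣ n := Nat.minFac_dvd n
      set m := n / p with hm
      have hmp : m * p = n := Nat.div_mul_cancel hpn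
      have hm1 : 1 ≤ m := by
        rcases Nat.eq_zero_or_pos m with h0 | h0
        · rw [h0, zero_mul] at hmp
          omega
        · exact h0
      have hmn : m < n := by
        have := hp.two_le
        nlinarith
      obtain ⟨tm, htm, htm'⟩ := ih m hmn hm1
      by_cases hpN : p ∣ N
      · refine ⟨tm * CuspForm.heckeULin 2 hpN,
          Subalgebra.mul_mem _ htm
            (CuspForm.heckeULin_mem_heckeAlgebra hp hpN (Set.notMem_empty _)), fun f => ?_⟩
        rw [Module.End.mul_apply, ← htm', cf_qCoeff_U N hp hpN f m, hmp]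
      · have hT := CuspForm.heckeTLin_mem_heckeAlgebra (N := N) (k := 2) (S := ∅) hp hpN
          (Set.notMem_empty _)
        by_cases hpm : p ∣ m
        · have hmp1 : 1 ≤ m / p := by
            obtain ⟨c, hc⟩ := hpm
            rw [hc, Nat.mul_div_cancel_left c hp.pos]
            rcases Nat.eq_zero_or_pos c with h0 | h0
            · rw [h0, mul_zero] at hc
              omega
            · exact h0
          have hmpn : m / p < n := lt_of_le_of_lt (Nat.div_le_self m p) hmn
          obtain ⟨t', ht', ht''⟩ := ih (m / p) hmpn hmp1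
          refine ⟨tm * CuspForm.heckeTLin 2 hp hpN - (p : ℤ) • t',
            Subalgebra.sub_mem _ (Subalgebra.mul_mem _ htm hT) (Subalgebra.smul_mem _ ht' _),
            fun f => ?_⟩
          rw [LinearMap.sub_apply, Module.End.mul_apply, LinearMap.smul_apply, map_sub, ← htm',
            cf_qCoeff_T N hp hpN f m, if_pos hpm, hmp, map_zsmul, ← ht'']
          simp
        · refine ⟨tm * CuspForm.heckeTLin 2 hp hpN, Subalgebra.mul_mem _ htm hT, fun f => ?_⟩
          rw [Module.End.mul_apply, ← htm', cf_qCoeff_T N hp hpN f m, if_neg hpm, hmp, add_zero]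

/-- The constant coefficient of a cusp form vanishes. -/
theorem coeff_zero (N : ℕ) [NeZero N] (f : CuspForm (Gamma0 N) 2) :
    ModularFormClass.qCoeff f 0 = 0 := by
  exact CuspFormClass.qExpansion_coeff_zero f one_pos (one_mem_strictPeriods N)

/-- A cusp form is determined by its `q`-coefficients. -/
theorem coeff_ext (N : ℕ) [NeZero N] (f g : CuspForm (Gamma0 N) 2)
    (h : ∀ n, ModularFormClass.qCoeff f n = ModularFormClass.qCoeff g n) : f = g := by
  have hΓ := one_mem_strictPeriods N
  haveI : Fact (IsCusp OnePoint.infty (Gamma0 N : Subgroup (GL (Fin 2) ℝ))) :=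
    ⟨Subgroup.isCusp_of_mem_strictPeriods one_pos hΓ⟩
  have := UpperHalfPlane.eq_of_forall_qCoeff_eq
    (SlashInvariantFormClass.periodic_comp_ofComplex f hΓ) (ModularFormClass.holo f)
    (ModularFormClass.bdd_at_infty f)
    (SlashInvariantFormClass.periodic_comp_ofComplex g hΓ) (ModularFormClass.holo g)
    (ModularFormClass.bdd_at_infty g) h
  exact DFunLike.coe_injective this

/-- `qCoeff` is additive. -/
theorem coeff_add (N : ℕ) [NeZero N] (f g : CuspForm (Gamma0 N) 2) (n : ℕ) :
    ModularFormClass.qCoeff (f + g) n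
      = ModularFormClass.qCoeff f n + ModularFormClass.qCoeff g n := by
  simp only [ModularFormClass.qCoeff]
  rw [ModularForm.qExpansion_add one_pos (one_mem_strictPeriods N) f g, map_add]

/-- `qCoeff` is homogeneous. -/
theorem coeff_smul (N : ℕ) [NeZero N] (c : ℂ) (f : CuspForm (Gamma0 N) 2) (n : ℕ) :
    ModularFormClass.qCoeff (c • f) n = c * ModularFormClass.qCoeff f n := by
  simp only [ModularFormClass.qCoeff]
  rw [ModularForm.qExpansion_smul one_pos (one_mem_strictPeriods N) c f,
    PowerSeries.coeff_smul, smul_eq_mul]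

end Fermat.Agent.S23
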