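import Fermat.Agent.S23.Conj
import Fermat.Agent.S23.Coeff

/-!
# S23 / (4a-iii): conjugation commutes with the Hecke algebra  (OWNER: see `s23_modules`)

`conjForm N f` is defined by choice from `exists_conjForm`; everything is proved by comparing
`q`-coefficients (`coeff_ext`, `coeff_add`, `coeff_smul`, `conjForm_qCoeff`).
`conjForm_hecke`: for the generators by `ModularFormClass.qCoeff_heckeT / _heckeU` and
`ModularForm.coeffHeckeT / coeffHeckeU` (the coefficient `p ^ (2 - 1)` is real); then
`Algebra.adjoin_induction` (sums, products, integers).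

Statements FROZEN; prefix extra names with `ch_`.
-/

set_option autoImplicit false

namespace Fermat.Agent.S23

open CongruenceSubgroup UpperHalfPlane
open scoped MatrixGroups

/-- The conjugate cusp form `f* (τ) = conj (f (-conj τ))`. -/
noncomputable def conjForm (N : ℕ) [NeZero N] (f : CuspForm (Gamma0 N) 2) :
    CuspForm (Gamma0 N) 2 :=
  (exists_conjForm N f).choose

theorem conjForm_qCoeff (N : ℕ) [NeZero N] (f : CuspForm (Gamma0 N) 2) (n : ℕ) :
    ModularFormClass.qCoeff (conjForm N f) n = starRingEnd ℂ (ModularFormClass.qCoeff f n) :=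
  (exists_conjForm N f).choose_spec n

theorem conjForm_add (N : ℕ) [NeZero N] (f g : CuspForm (Gamma0 N) 2) :
    conjForm N (f + g) = conjForm N f + conjForm N g := by
  refine coeff_ext N _ _ fun n => ?_
  rw [conjForm_qCoeff, CuspForm.coe_add, CuspForm.coe_add, coeff_add, coeff_add,
    conjForm_qCoeff, conjForm_qCoeff, map_add]

theorem conjForm_smul (N : ℕ) [NeZero N] (a : ℂ) (f : CuspForm (Gamma0 N) 2) :
    conjForm N (a • f) = (starRingEnd ℂ a) • conjForm N f := by
  refine coeff_ext N _ _ fun n => ?_
  rw [conjForm_qCoeff, CuspForm.IsGLPos.coe_smul, CuspForm.IsGLPos.coe_smul, coeff_smul,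
    coeff_smul, conjForm_qCoeff, map_mul]

theorem conjForm_conjForm (N : ℕ) [NeZero N] (f : CuspForm (Gamma0 N) 2) :
    conjForm N (conjForm N f) = f := by
  refine coeff_ext N _ _ fun n => ?_
  rw [conjForm_qCoeff, conjForm_qCoeff, Complex.conj_conj]

theorem conjForm_hecke (N : ℕ) [NeZero N] (t : Module.End ℂ (CuspForm (Gamma0 N) 2))
    (ht : t ∈ hecke N) (f : CuspForm (Gamma0 N) 2) :
    conjForm N (t f) = t (conjForm N f) := by
  have key : ∀ t ∈ Algebra.adjoin ℤ (CuspForm.heckeGenerators N 2 ∅),
      ∀ f : CuspForm (Gamma0 N) 2, conjForm N (t f) = t (conjForm N f) := by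
    intro t ht
    induction ht using Algebra.adjoin_induction with
    | mem x hx =>
      intro f
      rcases hx with ⟨ℓ, hℓ, hℓN, -, rfl⟩ | ⟨q, hqN, hq, -, rfl⟩
      · refine coeff_ext N _ _ fun n => ?_
        rw [conjForm_qCoeff, cf_qCoeff_T, cf_qCoeff_T, conjForm_qCoeff, map_add]
        split_ifs
        · rw [map_mul, conjForm_qCoeff, map_natCast]
        · rw [map_zero]
      · refine coeff_ext N _ _ fun n => ?_
        rw [conjForm_qCoeff, cf_qCoeff_U N hq, cf_qCoeff_U N hq, conjForm_qCoeff]
    | algebraMap r =>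
      intro f
      have h1 : ∀ g : CuspForm (Gamma0 N) 2,
          (algebraMap ℤ (Module.End ℂ (CuspForm (Gamma0 N) 2)) r) g = ((r : ℤ) : ℂ) • g := by
        intro g
        rw [Algebra.algebraMap_eq_smul_one, LinearMap.smul_apply, Module.End.one_apply,
          Int.cast_smul_eq_zsmul]
      rw [h1, h1, conjForm_smul, map_intCast]
    | add x y hx hy ihx ihy =>
      intro f
      rw [LinearMap.add_apply, LinearMap.add_apply, conjForm_add, ihx, ihy]
    | mul x y hx hy ihx ihy =>
      intro f
      rw [Module.End.mul_apply, Module.End.mul_apply, ihx, ihy]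
  exact key t ht f

end Fermat.Agent.S23
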