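import Fermat.Agent.S23.Defs

/-!
# S23 / (3): abstract Hecke duality  (OWNER: helper8; DONE)  — pure algebra

`A` is a torsion-free finitely generated `ℤ`-module, hence free with a finite basis `b : Fin r → A`
(`Module.free_of_finite_type_torsion_free'`, `Module.Free.chooseBasis`, `Module.finBasis`).
By `hLI` the `b i` are `ℂ`-linearly independent in `End_ℂ V`.  `Φ : V →ₗ[ℂ] (Fin r → ℂ)`,
`Φ f i = lam (b i f)`, is injective by `hsep` (every `t ∈ A` is a `ℤ`-combination of the `b i`).
`Φ` is surjective: otherwise there is `c ≠ 0` with `∑ i, c i * lam (b i f) = 0` for all `f`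
(a nonzero functional vanishing on the range); put `T = ∑ i, c i • b i`; then for `t ∈ A`,
`lam (t (T f)) = lam (T (t f)) = 0` (commutativity), so `T f = 0` for all `f` by `hsep`, i.e.
`T = 0`, contradicting `ℂ`-independence.  So there are `f_j` with `lam (b i (f_j)) = δ_ij`;
they span `V` (as `Φ` is an isomorphism) and `lam (t f_j) ∈ ℤ` for `t = ∑ n_i b_i ∈ A`.

Statement FROZEN; prefix extra names with `du_`.
-/

set_option autoImplicit false

namespace Fermat.Agent.S23

/-- A `ℤ`-subalgebra of `End_ℂ V` is additively torsion-free. -/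
theorem du_isAddTorsionFree {V : Type*} [AddCommGroup V] [Module ℂ V]
    (A : Subalgebra ℤ (Module.End ℂ V)) : IsAddTorsionFree A where
  nsmul_right_injective n hn a b hab := by
    apply Subtype.ext
    have h : (n : ℂ) • (a : Module.End ℂ V) = (n : ℂ) • (b : Module.End ℂ V) := by
      simp only [Nat.cast_smul_eq_nsmul]
      exact congrArg Subtype.val hab
    exact smul_right_injective _ (Nat.cast_ne_zero.mpr hn) h

theorem duality_span {V : Type*} [AddCommGroup V] [Module ℂ V]
    (A : Subalgebra ℤ (Module.End ℂ V))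
    (hcomm : ∀ s ∈ A, ∀ t ∈ A, s * t = t * s)
    (hfin : Module.Finite ℤ A)
    (lam : V →ₗ[ℂ] ℂ)
    (hsep : ∀ f : V, (∀ t ∈ A, lam (t f) = 0) → f = 0)
    (hLI : ∀ (r : ℕ) (b : Fin r → Module.End ℂ V), (∀ i, b i ∈ A) →
      LinearIndependent ℤ b → LinearIndependent ℂ b) :
    Submodule.span ℂ {f : V | ∀ t ∈ A, ∃ m : ℤ, lam (t f) = (m : ℂ)} = ⊤ := by
  classical
  have := hfin
  have : IsAddTorsionFree A := du_isAddTorsionFree A
  have : Module.Free ℤ A := Module.free_of_finite_type_torsion_free'
  -- a finite `ℤ`-basis of `A`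
  set r := Module.finrank ℤ A with hr
  let B : Module.Basis (Fin r) ℤ A := Module.finBasis ℤ A
  let b : Fin r → Module.End ℂ V := fun i => (B i : Module.End ℂ V)
  have hbA : ∀ i, b i ∈ A := fun i => (B i).2
  have hbZ : LinearIndependent ℤ b := by
    have h1 : LinearIndependent ℤ (fun i => B i) := B.linearIndependent
    have h2 := h1.map' (Subalgebra.toSubmodule A).subtype (Submodule.ker_subtype _)
    exact h2
  have hbC : LinearIndependent ℂ b := hLI r b hbA hbZ
  -- every `t ∈ A` is an integer combination of the `b i`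
  have hrepr : ∀ t ∈ A, ∃ n : Fin r → ℤ, t = ∑ i, n i • b i := by
    intro t ht
    refine ⟨fun i => B.repr ⟨t, ht⟩ i, ?_⟩
    have h1 := B.sum_repr ⟨t, ht⟩
    have h2 := congrArg (fun x : A => (x : Module.End ℂ V)) h1
    simp only at h2
    refine h2.symm.trans ?_
    simp [b]
  have hlam : ∀ (n : Fin r → ℤ) (f : V), lam ((∑ i, n i • b i) f)
      = ∑ i, (n i : ℂ) * lam (b i f) := by
    intro n f
    rw [LinearMap.sum_apply, map_sum]
    refine Finset.sum_congr rfl fun i _ => ?_
    rw [LinearMap.smul_apply, ← Int.cast_smul_eq_zsmul ℂ, map_smul, smul_eq_mul]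
  -- the coordinate map
  let Φ : V →ₗ[ℂ] (Fin r → ℂ) := LinearMap.pi fun i => lam ∘ₗ b i
  have hΦ : ∀ f i, Φ f i = lam (b i f) := fun f i => rfl
  have hΦinj : Function.Injective Φ := by
    rw [injective_iff_map_eq_zero]
    intro f hf
    apply hsep
    intro t ht
    obtain ⟨n, rfl⟩ := hrepr t ht
    rw [hlam]
    refine Finset.sum_eq_zero fun i _ => ?_
    have : Φ f i = 0 := by rw [hf]; rfl
    rw [hΦ] at this
    rw [this, mul_zero]
  have hΦsurj : Function.Surjective Φ := by
    rw [← LinearMap.range_eq_top]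
    by_contra hne
    obtain ⟨c, hc0, hcker⟩ := Submodule.exists_le_ker_of_lt_top _ (lt_top_iff_ne_top.mpr hne)
    apply hc0
    -- the endomorphism `T = ∑ c_i b_i`
    set T : Module.End ℂ V := ∑ i, c (Pi.single i 1) • b i with hT
    have hcΦ : ∀ f, c (Φ f) = lam (T f) := by
      intro f
      have h1 : Φ f = ∑ i, (Φ f i) • (Pi.single i (1 : ℂ) : Fin r → ℂ) := by
        ext j
        simp [Finset.sum_apply, Pi.single_apply]
      rw [h1, map_sum, hT, LinearMap.sum_apply, map_sum]
      refine Finset.sum_congr rfl fun i _ => ?_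
      rw [map_smul, LinearMap.smul_apply, map_smul, hΦ, smul_eq_mul, smul_eq_mul, mul_comm]
    have hT0 : ∀ f, lam (T f) = 0 := by
      intro f
      rw [← hcΦ]
      exact hcker ⟨f, rfl⟩
    have hTcomm : ∀ t ∈ A, ∀ f, t (T f) = T (t f) := by
      intro t ht f
      rw [hT, LinearMap.sum_apply, LinearMap.sum_apply, map_sum]
      refine Finset.sum_congr rfl fun i _ => ?_
      rw [LinearMap.smul_apply, LinearMap.smul_apply, map_smul]
      congr 1
      have := hcomm t ht (b i) (hbA i)
      exact congrArg (fun S : Module.End ℂ V => S f) this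
    have hTzero : T = 0 := by
      ext f
      apply hsep
      intro t ht
      rw [hTcomm t ht f]
      exact hT0 (t f)
    have hci : ∀ i, c (Pi.single i 1) = 0 := by
      have := Fintype.linearIndependent_iff.mp hbC (fun i => c (Pi.single i 1))
      exact this (by rw [← hT]; exact hTzero)
    ext i
    simpa using hci i
  -- the dual basis
  have hex : ∀ j : Fin r, ∃ f : V, Φ f = Pi.single j 1 := fun j => hΦsurj _
  choose g hg using hex
  rw [eq_top_iff]
  intro f _
  have hf : f = ∑ j, (Φ f j) • g j := by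
    apply hΦinj
    rw [map_sum]
    ext i
    simp [Finset.sum_apply, hg, Pi.single_apply]
  rw [hf]
  refine Submodule.sum_mem _ fun j _ => Submodule.smul_mem _ _ (Submodule.subset_span ?_)
  intro t ht
  obtain ⟨n, rfl⟩ := hrepr t ht
  refine ⟨n j, ?_⟩
  rw [hlam]
  have : ∀ i, lam (b i (g j)) = if i = j then 1 else 0 := by
    intro i
    rw [← hΦ, hg]
    simp [Pi.single_apply]
  simp [this]

end Fermat.Agent.S23
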