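import Fermat.Agent.S23.Defs
import Fermat.Agent.S22.Lattice

/-!
# S23 / (5-i): the period lattice is free of finite rank  (OWNER: helper9)  PROVED

`perFun` is additive in `γ` because `periodMap N f` is an `AddMonoidHom` on `Additive (Γ₀(N))`.
`Γ₀(N)` is a finitely generated group (`Fermat.Agent.S22.Gamma0_groupFG`), so `perLattice N` is
the `ℤ`-span of `perFun` of finitely many generators (and inverses): `perLattice_fg`.
`Module.Dual ℂ V` is torsion-free over `ℤ`, so the f.g. submodule `perLattice N` is free
(`Module.free_of_finite_type_torsion_free'`); a basis gives `perLattice_exists_basis`.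

Statements FROZEN; prefix extra names with `pb_`.
-/

set_option autoImplicit false

namespace Fermat.Agent.S23

open CongruenceSubgroup ModularCurve ModularCurve.Period UpperHalfPlane
open scoped MatrixGroups

theorem perFun_mul (N : ℕ) [NeZero N] (γ δ : Gamma0 N) :
    perFun N (γ * δ) = perFun N γ + perFun N δ := by
  apply LinearMap.ext
  intro f
  rw [LinearMap.add_apply, perFun_apply, perFun_apply, perFun_apply, ofMul_mul, map_add]

theorem perFun_one (N : ℕ) [NeZero N] : perFun N (1 : Gamma0 N) = 0 := by
  apply LinearMap.ext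
  intro f
  rw [perFun_apply, ofMul_one, map_zero]
  rfl

theorem perFun_inv (N : ℕ) [NeZero N] (γ : Gamma0 N) : perFun N γ⁻¹ = -perFun N γ := by
  have h := perFun_mul N γ γ⁻¹
  rw [mul_inv_cancel, perFun_one] at h
  exact eq_neg_of_add_eq_zero_right h.symm

theorem perLattice_fg (N : ℕ) [NeZero N] : (perLattice N).FG := by
  classical
  obtain ⟨S, hS, hSfin⟩ := Group.fg_iff.mp (Fermat.Agent.S22.Gamma0_groupFG N)
  obtain ⟨L, hL⟩ : ∃ L : Submodule ℤ (Module.Dual ℂ (CuspForm (Gamma0 N) 2)),
      L = Submodule.span ℤ (perFun N '' S) := ⟨_, rfl⟩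
  have hLfg : L.FG := by
    rw [hL]
    exact Submodule.fg_span (hSfin.image _)
  have key : ∀ γ : Gamma0 N, perFun N γ ∈ L := by
    intro γ
    have hγ : γ ∈ Subgroup.closure S := by rw [hS]; exact Subgroup.mem_top γ
    induction hγ using Subgroup.closure_induction with
    | mem x hx =>
      rw [hL]
      exact Submodule.subset_span ⟨x, hx, rfl⟩
    | one =>
      rw [perFun_one]
      exact L.zero_mem
    | mul x y _ _ hx hy =>
      rw [perFun_mul]
      exact L.add_mem hx hy
    | inv x _ hx =>
      rw [perFun_inv]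
      exact L.neg_mem hx
  have hle : perLattice N ≤ L := by
    refine Submodule.span_le.mpr ?_
    rintro _ ⟨γ, rfl⟩
    exact key γ
  have hge : L ≤ perLattice N := by
    rw [hL]
    refine Submodule.span_le.mpr ?_
    rintro _ ⟨γ, _, rfl⟩
    exact perFun_mem N γ
  rw [le_antisymm hle hge]
  exact hLfg

/-- A `ℤ`-basis of the period lattice. -/
theorem perLattice_exists_basis (N : ℕ) [NeZero N] :
    ∃ (m : ℕ) (φ : Fin m → Module.Dual ℂ (CuspForm (Gamma0 N) 2)),
      LinearIndependent ℤ φ ∧ Submodule.span ℤ (Set.range φ) = perLattice N := by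
  have hfin : Module.Finite ℤ (perLattice N) := Module.Finite.iff_fg.mpr (perLattice_fg N)
  obtain ⟨m, b⟩ : Σ n, Module.Basis (Fin n) ℤ (perLattice N) :=
    Module.basisOfFiniteTypeTorsionFree'
  refine ⟨m, fun i => ((b i : perLattice N) : Module.Dual ℂ (CuspForm (Gamma0 N) 2)), ?_, ?_⟩
  · have h1 := b.linearIndependent
    exact h1.map' (perLattice N).subtype (Submodule.ker_subtype _)
  · have h2 := b.span_eq
    have h3 := congrArg (Submodule.map (perLattice N).subtype) h2
    rw [Submodule.map_span, Submodule.map_top, Submodule.range_subtype] at h3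
    have h4 : (Set.range fun i => ((b i : perLattice N) :
        Module.Dual ℂ (CuspForm (Gamma0 N) 2)))
        = (perLattice N).subtype '' Set.range b := by
      ext x
      simp [Set.mem_range]
    rw [h4]
    exact h3

end Fermat.Agent.S23
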