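import Fermat.Agent.S23.Defs
import Fermat.Agent.S23.PerBasic
import Fermat.Agent.S21.AlgBound

/-!
# S23 / (5-iv): the rank of the period lattice is at most `2 dim V`  (OWNER: helper9)  PROVED

Let `φ : Fin m → V*` be a `ℤ`-basis of `perLattice N`.  For `ψ : Fin m → ℂ` let
`χ_ψ : perLattice N →ₗ[ℤ] ℂ` be the `ℤ`-linear map with `χ_ψ (φ a) = ψ a` (`Basis.constr` for the
basis `Basis.mk`/`Basis.span`).  `γ ↦ χ_ψ (perFun N γ)` is an additive character of `Γ₀(N)`
(`perFun` is additive in `γ`), parabolic because `perFun N γ = 0` for parabolic `γ`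
(`Fermat.Agent.S21.es_periodMap_parabolic`).  `ψ ↦ χ_ψ ∘ perFun` is `ℂ`-linear and injective
(the `perFun N γ` generate the lattice), so
`m ≤ finrank ℂ (parabolicHoms ℂ (Gamma0 N) ℂ) ≤ 2 * genusFormula N = 2 * finrank ℂ V`
(`Fermat.Agent.S21.es_parabolic_finrank_le` and `hdim` = S20).

Statement FROZEN; prefix extra names with `pk_`.
-/

set_option autoImplicit false

namespace Fermat.Agent.S23

open CongruenceSubgroup ModularCurve ModularCurve.Period UpperHalfPlane
open scoped MatrixGroups

/-- Period functionals of parabolic elements vanish. -/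
theorem pk_perFun_parabolic (N : ℕ) [NeZero N] (γ : Gamma0 N)
    (hγ : ((γ : SL(2, ℤ)) : Matrix (Fin 2) (Fin 2) ℤ).trace ^ 2 = 4) : perFun N γ = 0 := by
  apply LinearMap.ext
  intro f
  rw [perFun_apply]
  exact Fermat.Agent.S21.es_periodMap_parabolic N f γ hγ

theorem per_rank_le (N : ℕ) [NeZero N]
    (hdim : (Module.finrank ℂ (CuspForm (Gamma0 N) 2) : ℚ) = genusFormula N)
    {m : ℕ} (φ : Fin m → Module.Dual ℂ (CuspForm (Gamma0 N) 2))
    (hφ : LinearIndependent ℤ φ) (hspan : Submodule.span ℤ (Set.range φ) = perLattice N) :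
    m ≤ 2 * Module.finrank ℂ (CuspForm (Gamma0 N) 2) := by
  classical
  obtain ⟨hfin, hbound⟩ := Fermat.Agent.S21.es_parabolic_finrank_le N
  -- the basis of `P = span φ`
  let B : Module.Basis (Fin m) ℤ (Submodule.span ℤ (Set.range φ)) := Module.Basis.span hφ
  have hmem : ∀ γ : Gamma0 N, perFun N γ ∈ Submodule.span ℤ (Set.range φ) := by
    intro γ
    rw [hspan]
    exact perFun_mem N γ
  -- the period map into `P`
  let E : Additive (Gamma0 N) →+ Submodule.span ℤ (Set.range φ) :=
    { toFun := fun γ => ⟨perFun N (Additive.toMul γ), hmem _⟩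
      map_zero' := by
        apply Subtype.ext
        exact perFun_one N
      map_add' := by
        intro γ δ
        apply Subtype.ext
        exact perFun_mul N (Additive.toMul γ) (Additive.toMul δ) }
  have hE : ∀ γ : Gamma0 N, ((E (Additive.ofMul γ) : Submodule.span ℤ (Set.range φ)) :
      Module.Dual ℂ (CuspForm (Gamma0 N) 2)) = perFun N γ := fun γ => rfl
  -- the `E γ` span `P`
  have hEspan : Submodule.span ℤ (Set.range fun γ : Gamma0 N => E (Additive.ofMul γ)) = ⊤ := by
    apply Submodule.map_injective_of_injective (Submodule.span ℤ (Set.range φ)).injective_subtype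
    rw [Submodule.map_span, Submodule.map_top, Submodule.range_subtype]
    have himg : ((Submodule.span ℤ (Set.range φ)).subtype ''
        Set.range fun γ : Gamma0 N => E (Additive.ofMul γ)) = Set.range (perFun N) := by
      ext x
      constructor
      · rintro ⟨_, ⟨γ, rfl⟩, rfl⟩
        exact ⟨γ, rfl⟩
      · rintro ⟨γ, rfl⟩
        exact ⟨_, ⟨γ, rfl⟩, rfl⟩
    rw [himg]
    exact hspan.symm
  -- the injective linear map `(Fin m → ℂ) → parabolicHoms`
  let Θ : (Fin m → ℂ) →ₗ[ℂ] parabolicHoms ℂ (Gamma0 N) ℂ :=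
    { toFun := fun ψ => ⟨(B.constr ℂ ψ).toAddMonoidHom.comp E, by
        rw [mem_parabolicHoms_iff]
        intro γ hγ
        have h0 : E (Additive.ofMul γ) = 0 := by
          apply Subtype.ext
          rw [hE]
          exact pk_perFun_parabolic N γ hγ
        show (B.constr ℂ ψ) (E (Additive.ofMul γ)) = 0
        rw [h0, map_zero]⟩
      map_add' := by
        intro ψ ψ'
        apply Subtype.ext
        refine AddMonoidHom.ext fun γ => ?_
        show (B.constr ℂ (ψ + ψ')) (E γ) = (B.constr ℂ ψ) (E γ) + (B.constr ℂ ψ') (E γ)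
        rw [map_add]
        rfl
      map_smul' := by
        intro c ψ
        apply Subtype.ext
        refine AddMonoidHom.ext fun γ => ?_
        show (B.constr ℂ (c • ψ)) (E γ) = c • (B.constr ℂ ψ) (E γ)
        rw [map_smul]
        rfl }
  have hΘ : Function.Injective Θ := by
    rw [injective_iff_map_eq_zero]
    intro ψ hψ
    have h1 : B.constr ℂ ψ = 0 := by
      refine LinearMap.ext_on_range hEspan fun γ => ?_
      have := congrArg (fun χ : parabolicHoms ℂ (Gamma0 N) ℂ =>
        (χ : Additive (Gamma0 N) →+ ℂ) (Additive.ofMul γ)) hψ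
      exact this
    exact (B.constr ℂ).injective (by rw [h1, map_zero])
  have h2 := LinearMap.finrank_le_finrank_of_injective hΘ
  rw [Module.finrank_fintype_fun_eq_card, Fintype.card_fin] at h2
  have h3 : (m : ℚ) ≤ 2 * (Module.finrank ℂ (CuspForm (Gamma0 N) 2) : ℚ) := by
    rw [hdim]
    exact le_trans (by exact_mod_cast h2) hbound
  exact_mod_cast h3

end Fermat.Agent.S23
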