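import Fermat.Agent.S23.Defs
import Fermat.Agent.S21.Inject
import Fermat.Agent.S21.AlgBound

/-!
# S23 / (5-iii): real periods determine the form  (OWNER: helper9)  PROVED

`per_im_injective`: `Fermat.Agent.S21.inj_of_real_periods` (helper9, from the maximum-modulus
lemma).  `per_finiteDimensional`: `f ↦ periodMap N f` is injective into `parabolicHoms`
(`es_periodMap_parabolic`), which is finite-dimensional (`es_parabolic_finrank_le`).

Statements FROZEN; prefix extra names with `pr_`.
-/

set_option autoImplicit false

namespace Fermat.Agent.S23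

open CongruenceSubgroup ModularCurve ModularCurve.Period UpperHalfPlane
open scoped MatrixGroups

/-- A cusp form all of whose periods are real is zero. -/
theorem per_im_injective (N : ℕ) [NeZero N] (f : CuspForm (Gamma0 N) 2)
    (h : ∀ φ ∈ perLattice N, (φ f).im = 0) : f = 0 := by
  exact Fermat.Agent.S21.inj_of_real_periods N f fun γ => h (perFun N γ) (perFun_mem N γ)

/-- The period lattice separates the points of `V`. -/
theorem per_separates (N : ℕ) [NeZero N] (f : CuspForm (Gamma0 N) 2)
    (h : ∀ φ ∈ perLattice N, φ f = 0) : f = 0 := by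
  refine per_im_injective N f fun φ hφ => ?_
  rw [h φ hφ]
  rfl

theorem per_finiteDimensional (N : ℕ) [NeZero N] :
    FiniteDimensional ℂ (CuspForm (Gamma0 N) 2) := by
  obtain ⟨pml, hpml⟩ := Fermat.Agent.S21.es_existsPeriodMapLinear N
  obtain ⟨hfin, -⟩ := Fermat.Agent.S21.es_parabolic_finrank_le N
  have hmem : ∀ f, pml f ∈ parabolicHoms ℂ (Gamma0 N) ℂ := by
    intro f
    rw [hpml]
    exact Fermat.Agent.S21.es_periodMap_parabolic N f
  have hinj : Function.Injective (LinearMap.codRestrict (parabolicHoms ℂ (Gamma0 N) ℂ) pml hmem) := by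
    rw [injective_iff_map_eq_zero]
    intro f hf
    have h1 : pml f = 0 := congrArg Subtype.val hf
    rw [hpml] at h1
    refine per_separates N f fun φ hφ => ?_
    induction hφ using Submodule.span_induction with
    | mem x hx =>
      obtain ⟨γ, rfl⟩ := hx
      rw [perFun_apply, h1]
      rfl
    | zero => rfl
    | add x y _ _ hx hy => rw [LinearMap.add_apply, hx, hy, add_zero]
    | smul a x _ hx => rw [LinearMap.smul_apply, hx, smul_zero]
  exact FiniteDimensional.of_injective _ hinj

end Fermat.Agent.S23
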