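import Fermat.Agent.S23.PerBasic
import Fermat.Agent.S23.PerReal
import Fermat.Agent.S23.PerRank

/-!
# S23 / (5-v): the period lattice has an `ℝ`-independent `ℤ`-basis  (OWNER: helper8; DONE)

Let `φ : Fin m → V*` be a `ℤ`-basis of `perLattice N` (`perLattice_exists_basis`), `d = dim_ℂ V`
(`per_finiteDimensional`).  The `ℝ`-linear map `ρ : V → (Fin m → ℝ)`, `ρ f a = (φ a f).im`, is
injective (`per_im_injective`: `(φ f).im = 0` for all `φ` in the `ℤ`-span).  As
`finrank ℝ V = 2 d` (`finrank_real_of_complex`) and `m ≤ 2 d` (`per_rank_le`), `ρ` is bijective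
(`LinearMap.injective_iff_surjective_of_finrank_eq_finrank`).  If `∑ a, c a • φ a = 0` with real
`c`, then `∑ a, c a * ρ f a = 0` for all `f`; taking `ρ f = Pi.single a 1` gives `c a = 0`.

Statement FROZEN; prefix extra names with `pi_`.
-/

set_option autoImplicit false

namespace Fermat.Agent.S23

open CongruenceSubgroup ModularCurve ModularCurve.Period UpperHalfPlane
open scoped MatrixGroups

/-- The real-linear map `f ↦ (Im (φ a f))_a`. -/
noncomputable def piRho {V : Type*} [AddCommGroup V] [Module ℂ V] {m : ℕ}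
    (φ : Fin m → Module.Dual ℂ V) : V →ₗ[ℝ] (Fin m → ℝ) :=
  LinearMap.pi fun a => Complex.imLm ∘ₗ (φ a).restrictScalars ℝ

theorem piRho_apply {V : Type*} [AddCommGroup V] [Module ℂ V] {m : ℕ}
    (φ : Fin m → Module.Dual ℂ V) (f : V) (a : Fin m) : piRho φ f a = (φ a f).im := rfl

/-- Abstract form: a `ℤ`-family of functionals of size `≤ 2 dim V` whose imaginary parts separate
the points of `V` is `ℝ`-linearly independent. -/
theorem pi_realIndep_of_card_le {V : Type*} [AddCommGroup V] [Module ℂ V]
    [FiniteDimensional ℂ V] {m : ℕ} (φ : Fin m → Module.Dual ℂ V)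
    (hm : m ≤ 2 * Module.finrank ℂ V)
    (hinj : ∀ f : V, (∀ a, (φ a f).im = 0) → f = 0) : RealIndep φ := by
  have : FiniteDimensional ℝ V := FiniteDimensional.complexToReal V
  have hfr : Module.finrank ℝ V = 2 * Module.finrank ℂ V := finrank_real_of_complex V
  have hρinj : Function.Injective (piRho φ) := by
    rw [injective_iff_map_eq_zero]
    intro f hf
    apply hinj
    intro a
    rw [← piRho_apply, hf]
    rfl
  have hle : Module.finrank ℝ V ≤ Module.finrank ℝ (Fin m → ℝ) :=
    LinearMap.finrank_le_finrank_of_injective hρinj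
  have hpi : Module.finrank ℝ (Fin m → ℝ) = m := by simp
  have heq : Module.finrank ℝ V = Module.finrank ℝ (Fin m → ℝ) := by
    rw [hpi] at hle ⊢
    omega
  have hρsurj : Function.Surjective (piRho φ) :=
    (LinearMap.injective_iff_surjective_of_finrank_eq_finrank heq).mp hρinj
  intro c hc a₀
  obtain ⟨f, hf⟩ := hρsurj (Pi.single a₀ 1)
  have h1 := congrArg (fun ψ : Module.Dual ℂ V => (ψ f).im) hc
  simp only [LinearMap.sum_apply, LinearMap.smul_apply, smul_eq_mul, LinearMap.zero_apply,
    Complex.zero_im, Complex.im_sum, Complex.im_ofReal_mul] at h1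
  have h2 : ∀ a, (φ a f).im = (Pi.single a₀ (1 : ℝ) : Fin m → ℝ) a := by
    intro a
    rw [← piRho_apply, hf]
  simp only [h2, Pi.single_apply, mul_ite, mul_one, mul_zero, Finset.sum_ite_eq',
    Finset.mem_univ, if_true] at h1
  exact h1

theorem per_exists_realIndep_basis (N : ℕ) [NeZero N]
    (hdim : (Module.finrank ℂ (CuspForm (Gamma0 N) 2) : ℚ) = genusFormula N) :
    ∃ (m : ℕ) (φ : Fin m → Module.Dual ℂ (CuspForm (Gamma0 N) 2)),
      Submodule.span ℤ (Set.range φ) = perLattice N ∧ RealIndep φ := by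
  obtain ⟨m, φ, hφ, hspan⟩ := perLattice_exists_basis N
  have := per_finiteDimensional N
  refine ⟨m, φ, hspan, pi_realIndep_of_card_le φ (per_rank_le N hdim φ hφ hspan) ?_⟩
  intro f hf
  apply per_im_injective N f
  intro ψ hψ
  rw [← hspan] at hψ
  induction hψ using Submodule.span_induction with
  | mem x hx =>
    obtain ⟨a, rfl⟩ := hx
    exact hf a
  | zero => simp
  | add x y _ _ hx hy =>
    rw [LinearMap.add_apply, Complex.add_im, hx, hy, add_zero]
  | smul c x _ hx =>
    rw [LinearMap.smul_apply, ← Int.cast_smul_eq_zsmul ℂ, smul_eq_mul]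
    have : ((c : ℤ) : ℂ) = ((c : ℝ) : ℂ) := by push_cast; rfl
    rw [this, Complex.im_ofReal_mul, hx, mul_zero]

end Fermat.Agent.S23
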