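import Mathlib

/-!
# S23 / (4b-i): an injective integer matrix is injective over `ℝ`  (OWNER: helper3; proofs complete)

Pure linear algebra.  `M` is injective on `ℤ`-vectors, hence on `ℚ`-vectors (clear
denominators), hence `Matrix.toLin'` of `M.map (↑) : Matrix κ ι ℚ` has a left inverse `G`
(`LinearMap.exists_leftInverse_of_injective`), i.e. `G * M_ℚ = 1` as matrices; mapping to `ℝ`
(`Matrix.map_mul`, `RingHom.mapMatrix`) gives `G_ℝ * M_ℝ = 1`, so `M_ℝ` is injective.

Statement FROZEN; prefix extra names with `mi_`.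
-/

set_option autoImplicit false

namespace Fermat.Agent.S23

open Matrix

/-- Clearing denominators of a finite family of rationals. -/
lemma mi_clear_denom {ι : Type} [Fintype ι] (v : ι → ℚ) :
    ∃ (D : ℕ) (n : ι → ℤ), 0 < D ∧ ∀ i, (n i : ℚ) = D * v i := by
  classical
  refine ⟨∏ i, (v i).den, fun i => (v i).num * ∏ j ∈ Finset.univ.erase i, ((v j).den : ℤ), ?_, ?_⟩
  · exact Finset.prod_pos fun i _ => (v i).den_pos
  · intro i
    have h1 : (∏ j, (v j).den : ℕ) = (v i).den * ∏ j ∈ Finset.univ.erase i, (v j).den :=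
      (Finset.mul_prod_erase _ _ (Finset.mem_univ i)).symm
    rw [h1]
    push_cast
    have hv : v i * (v i).den = (v i).num := Rat.mul_den_eq_num (v i)
    rw [← hv]
    ring

theorem int_matrix_real_injective {ι κ : Type} [Fintype ι] [Fintype κ]
    (M : κ → ι → ℤ)
    (hM : ∀ n : ι → ℤ, (∀ k, ∑ i, M k i * n i = 0) → ∀ i, n i = 0)
    (c : ι → ℝ) (hc : ∀ k, ∑ i, (M k i : ℝ) * c i = 0) : ∀ i, c i = 0 := by
  classical
  set Mq : Matrix κ ι ℚ := Matrix.of fun k i => (M k i : ℚ) with hMq
  -- injectivity over `ℚ`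
  have hinj : Function.Injective (Matrix.toLin' Mq) := by
    refine (injective_iff_map_eq_zero _).mpr fun v hv => ?_
    obtain ⟨D, n, hD, hn⟩ := mi_clear_denom v
    have hn0 : ∀ i, n i = 0 := by
      apply hM
      intro k
      have hk : ∑ i, (M k i : ℚ) * v i = 0 := by
        have := congrFun hv k
        simpa [Matrix.toLin'_apply, Matrix.mulVec, dotProduct, hMq] using this
      have : ((∑ i, M k i * n i : ℤ) : ℚ) = 0 := by
        push_cast
        simp only [hn]
        calc ∑ i, (M k i : ℚ) * (D * v i) = D * ∑ i, (M k i : ℚ) * v i := by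
              rw [Finset.mul_sum]; exact Finset.sum_congr rfl fun i _ => by ring
          _ = 0 := by rw [hk, mul_zero]
      exact_mod_cast this
    funext i
    have hDi := hn i
    rw [hn0 i] at hDi
    have hD' : (D : ℚ) ≠ 0 := by exact_mod_cast hD.ne'
    simpa [hD'] using hDi.symm
  obtain ⟨g, hg⟩ := LinearMap.exists_leftInverse_of_injective (Matrix.toLin' Mq)
    (LinearMap.ker_eq_bot.mpr hinj)
  set G : Matrix ι κ ℚ := LinearMap.toMatrix' g with hG
  have hGM : G * Mq = 1 := by
    have : LinearMap.toMatrix' (g ∘ₗ Matrix.toLin' Mq) = 1 := by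
      rw [hg]; exact LinearMap.toMatrix'_id
    rwa [LinearMap.toMatrix'_comp, LinearMap.toMatrix'_toLin'] at this
  have hGMR : (G.map (Rat.castHom ℝ)) * (Mq.map (Rat.castHom ℝ)) = 1 := by
    rw [← Matrix.map_mul, hGM, Matrix.map_one] <;> simp
  have hMc : (Mq.map (Rat.castHom ℝ)) *ᵥ c = 0 := by
    funext k
    simpa [Matrix.mulVec, dotProduct, hMq] using hc k
  have : c = 0 := by
    calc c = (1 : Matrix ι ι ℝ) *ᵥ c := (Matrix.one_mulVec c).symm
      _ = ((G.map (Rat.castHom ℝ)) * (Mq.map (Rat.castHom ℝ))) *ᵥ c := by rw [hGMR]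
      _ = (G.map (Rat.castHom ℝ)) *ᵥ ((Mq.map (Rat.castHom ℝ)) *ᵥ c) := by
          rw [Matrix.mulVec_mulVec]
      _ = 0 := by rw [hMc, Matrix.mulVec_zero]
  intro i
  rw [this]
  rfl

end Fermat.Agent.S23
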