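import Fermat.Agent.S23.Defs
import Fermat.Agent.S23.MatInd

/-!
# S23 / (4b-ii): `ℝ`-independence from a stable lattice  (OWNER: helper3; proofs complete) — pure algebra

For every `i, a`: `φ a ∘ₗ b i = ∑ b', A i a b' • φ b'` with integers `A i a b'` (`hstab`,
`Submodule.mem_span_range_iff_exists_fun` / `Finsupp`).  If `∑ i, c i • b i = 0` with real `c`,
then `∑ b', (∑ i, c i * A i a b') • φ b' = 0`, so `∑ i, c i * A i a b' = 0` for all `a, b'` by
`hφ`.  The integer matrix `M (a, b') i = A i a b'` is injective on integer vectors: if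
`∑ i, n i * A i a b' = 0` for all `a, b'` then `φ a ∘ₗ (∑ i, n i • b i) = 0` for all `a`, so
`∑ i, n i • b i = 0` by `hsep`, so `n = 0` by `hbi`.  Conclude with `int_matrix_real_injective`.

Statement FROZEN; prefix extra names with `ri_`.
-/

set_option autoImplicit false

namespace Fermat.Agent.S23

theorem realIndep_of_lattice {V : Type*} [AddCommGroup V] [Module ℂ V]
    (A : Subalgebra ℤ (Module.End ℂ V))
    {m : ℕ} (φ : Fin m → Module.Dual ℂ V) (hφ : RealIndep φ)
    (hstab : ∀ t ∈ A, ∀ a, φ a ∘ₗ t ∈ Submodule.span ℤ (Set.range φ))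
    (hsep : ∀ f : V, (∀ a, φ a f = 0) → f = 0)
    {r : ℕ} (b : Fin r → Module.End ℂ V) (hb : ∀ i, b i ∈ A)
    (hbi : LinearIndependent ℤ b) : RealIndep b := by
  classical
  -- integer structure constants
  have hex : ∀ i a, ∃ co : Fin m → ℤ, ∑ b', co b' • φ b' = φ a ∘ₗ b i := fun i a =>
    (Submodule.mem_span_range_iff_exists_fun ℤ).mp (hstab (b i) (hb i) a)
  choose Aco hAco using hex
  -- pointwise form
  have hpt : ∀ i a (f : V), φ a (b i f) = ∑ b', (Aco i a b' : ℂ) * φ b' f := by
    intro i a f
    have := congrArg (fun L : Module.Dual ℂ V => L f) (hAco i a)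
    simp only [LinearMap.comp_apply, LinearMap.sum_apply, LinearMap.smul_apply] at this
    rw [← this]
    refine Finset.sum_congr rfl fun b' _ => ?_
    rw [zsmul_eq_mul]
  intro c hc
  refine int_matrix_real_injective (ι := Fin r) (κ := Fin m × Fin m)
    (fun k i => Aco i k.1 k.2) ?_ c ?_
  · -- injectivity on integer vectors
    intro n hn
    have ht : ∑ i, n i • b i = 0 := by
      apply LinearMap.ext
      intro f
      apply hsep
      intro a
      rw [LinearMap.sum_apply, map_sum]
      have : ∀ i, φ a ((n i • b i) f) = ∑ b', ((Aco i a b' * n i : ℤ) : ℂ) * φ b' f := by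
        intro i
        rw [LinearMap.smul_apply, map_zsmul, hpt, zsmul_eq_mul, Finset.mul_sum]
        refine Finset.sum_congr rfl fun b' _ => ?_
        push_cast
        ring
      rw [Finset.sum_congr rfl fun i _ => this i, Finset.sum_comm]
      refine Finset.sum_eq_zero fun b' _ => ?_
      rw [← Finset.sum_mul]
      have h0 := hn (a, b')
      have : (∑ i, ((Aco i a b' * n i : ℤ) : ℂ)) = 0 := by
        rw [← Int.cast_sum]
        exact_mod_cast h0
      rw [this, zero_mul]
    exact Fintype.linearIndependent_iff.mp hbi n ht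
  · -- the real relation
    rintro ⟨a, b'⟩
    have hrel : ∑ b'', (((∑ i, (Aco i a b'' : ℝ) * c i : ℝ)) : ℂ) • φ b'' = 0 := by
      apply LinearMap.ext
      intro f
      have h1 : φ a ((∑ i, ((c i : ℝ) : ℂ) • b i) f) = 0 := by rw [hc]; simp
      rw [LinearMap.sum_apply, map_sum] at h1
      simp only [LinearMap.smul_apply, map_smul, smul_eq_mul, hpt] at h1
      simp only [LinearMap.sum_apply, LinearMap.smul_apply, smul_eq_mul, LinearMap.zero_apply]
      rw [← h1]
      push_cast
      simp only [Finset.mul_sum, Finset.sum_mul]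
      rw [Finset.sum_comm]
      refine Finset.sum_congr rfl fun i _ => Finset.sum_congr rfl fun b'' _ => ?_
      ring
    exact hφ _ hrel b'

end Fermat.Agent.S23
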