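import Fermat.Agent.S23.Coeff
import Fermat.Agent.S23.Duality
import Fermat.Agent.S23.RealInd
import Fermat.Agent.S23.ConjAbs
import Fermat.Agent.S23.ConjHecke
import Fermat.Agent.S23.Bridge
import Fermat.Agent.S23.PerIndep
import Fermat.Agent.S22

/-!
# S23: assembly  (OWNER: helper8)

`s23_assembly`: the S23 statement from the pieces and the S20 dimension formula (hypothesis
`hdim`; `S23.lean` feeds `Fermat.Agent.S20.result`).
-/

set_option autoImplicit false

namespace Fermat.Agent.S23

open CongruenceSubgroup ModularCurve ModularCurve.Period UpperHalfPlane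
open scoped MatrixGroups

theorem hecke_comm (N : ℕ) [NeZero N] (s : Module.End ℂ (CuspForm (Gamma0 N) 2))
    (hs : s ∈ hecke N) (t : Module.End ℂ (CuspForm (Gamma0 N) 2)) (ht : t ∈ hecke N) :
    s * t = t * s := by
  have h := mul_comm (⟨s, hs⟩ : CuspForm.heckeAlgebra N 2 ∅) ⟨t, ht⟩
  exact congrArg Subtype.val h

theorem hecke_sep (N : ℕ) [NeZero N] (f : CuspForm (Gamma0 N) 2)
    (h : ∀ t ∈ hecke N, a1 N (t f) = 0) : f = 0 := by
  apply coeff_ext N f 0
  intro n
  have h0 : ModularFormClass.qCoeff (⇑(0 : CuspForm (Gamma0 N) 2)) n = 0 := by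
    have := coeff_smul N 0 (0 : CuspForm (Gamma0 N) 2) n
    simpa using this
  rw [h0]
  rcases Nat.eq_zero_or_pos n with hn | hn
  · subst hn
    exact coeff_zero N f
  · obtain ⟨t, ht, htf⟩ := coeff_hecke N n hn
    rw [htf f]
    exact h t ht

theorem s23_assembly (N : ℕ) [NeZero N]
    (hdim : (Module.finrank ℂ (CuspForm (Gamma0 N) 2) : ℚ) = genusFormula N) :
    CuspForm.HasIntegralStructure N 2 := by
  obtain ⟨m, φ, hspan, hφ⟩ := per_exists_realIndep_basis N hdim
  have hmem : ∀ a, φ a ∈ perLattice N := fun a => by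
    rw [← hspan]
    exact Submodule.subset_span ⟨a, rfl⟩
  have hstab : ∀ t ∈ hecke N, ∀ a, φ a ∘ₗ t ∈ Submodule.span ℤ (Set.range φ) := by
    intro t ht a
    rw [hspan]
    exact perLattice_stable N t ht (φ a) (hmem a)
  have hsep : ∀ f : CuspForm (Gamma0 N) 2, (∀ a, φ a f = 0) → f = 0 := by
    intro f hf
    apply per_separates N f
    intro ψ hψ
    rw [← hspan] at hψ
    induction hψ using Submodule.span_induction with
    | mem x hx =>
      obtain ⟨a, rfl⟩ := hx
      exact hf a
    | zero => rfl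
    | add x y _ _ hx hy =>
      rw [LinearMap.add_apply, hx, hy, add_zero]
    | smul c x _ hx =>
      rw [LinearMap.smul_apply, hx, smul_zero]
  have hLI : ∀ (r : ℕ) (b : Fin r → Module.End ℂ (CuspForm (Gamma0 N) 2)),
      (∀ i, b i ∈ hecke N) → LinearIndependent ℤ b → LinearIndependent ℂ b := by
    intro r b hb hbi
    exact complexIndep_of_realIndep (conjForm N) (conjForm_add N) (conjForm_smul N)
      (conjForm_conjForm N) b (fun i f => conjForm_hecke N (b i) (hb i) f)
      (realIndep_of_lattice (hecke N) φ hφ hstab hsep b hb hbi)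
  have hdual := duality_span (hecke N) (hecke_comm N) (Fermat.Agent.S22.result N 2 ∅) (a1 N)
    (hecke_sep N) hLI
  unfold CuspForm.HasIntegralStructure
  rw [eq_top_iff, ← hdual]
  apply Submodule.span_mono
  intro f hf
  apply Submodule.subset_span
  intro n
  rcases Nat.eq_zero_or_pos n with hn | hn
  · subst hn
    exact ⟨0, by rw [coeff_zero N f]; simp⟩
  · obtain ⟨t, ht, htf⟩ := coeff_hecke N n hn
    obtain ⟨k, hk⟩ := hf t ht
    exact ⟨k, by rw [htf f, hk]⟩

end Fermat.Agent.S23
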