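import Fermat.Agent.S23.Defs
import Fermat.Agent.S21.Inject

/-!
# S23 / (4a-ii): the conjugate cusp form  (OWNER: helper8; DONE)

`g τ = conj (f (J • τ))`, `J • τ = -conj τ` (Mathlib `UpperHalfPlane.J`; helper9's
`Fermat.Agent.S21.injStar`, `inj_star_diff`, `inj_J_smul`, `inj_tendsto_J` in `S21/Inject.lean`).
* slash invariance under `γ ∈ Γ₀(N)`: `J • (γ • τ) = jConjSL γ • (J • τ)` (`inj_J_smul`),
  `jConjSL γ ∈ Γ₀(N)` (prelude `jConjSL_mem_Gamma0`), `denom (jConjSL γ) (J • τ) = conj (denom γ τ)`.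
* holomorphy: `inj_star_diff`.
* zero at all cusps: `(g ∣[2] δ) τ = conj ((f ∣[2] jConjSL δ) (J • τ))` and `inj_tendsto_J`.
* `q`-coefficients: `f τ = ∑ a_n q(τ)^n` (`ModularFormClass.hasSum_qExpansion`),
  `conj (q (J • τ)) = q τ`, so `g τ = ∑ conj (a_n) q(τ)^n`; uniqueness of the expansion
  (`UpperHalfPlane.hasFPowerSeriesOnBall_cuspFunction` + `HasFPowerSeriesAt.eq_formalMultilinearSeries`,
  or `qExpansion_coeff_unique`).

Statement FROZEN; prefix extra names with `cj_`.
-/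

set_option autoImplicit false

namespace Fermat.Agent.S23

open CongruenceSubgroup UpperHalfPlane ModularCurve.Period Fermat.Agent.S21 Filter Topology
open scoped MatrixGroups ComplexConjugate ModularForm Manifold

local notation "𝕢" => Function.Periodic.qParam

/-- `denom (εγε) (-conj τ) = conj (denom γ τ)`. -/
theorem cj_denom (γ : SL(2, ℤ)) (τ : ℍ) :
    denom (jConjSL γ) ((J • τ : ℍ) : ℂ) = conj (denom γ τ) := by
  rw [ModularGroup.denom_apply, ModularGroup.denom_apply, coe_J_smul]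
  simp only [jConjSL_coe, jConjMat_apply_one_zero, jConjMat_apply_one_one, map_add, map_mul,
    map_intCast]
  push_cast
  ring

/-- Slash and `⋆` commute up to `γ ↦ εγε`. -/
theorem cj_slash (F : ℍ → ℂ) (k : ℤ) (γ : SL(2, ℤ)) :
    injStar F ∣[k] γ = injStar (F ∣[k] jConjSL γ) := by
  ext τ
  simp only [injStar, ModularForm.SL_slash_apply]
  rw [inj_J_smul, cj_denom, map_mul, map_zpow₀, Complex.conj_conj]

theorem cj_mdiff {F : ℍ → ℂ} (hF : MDiff F) : MDiff (injStar F) := by
  intro τ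
  rw [UpperHalfPlane.mdifferentiableAt_iff]
  exact inj_star_diff (fun τ' => UpperHalfPlane.mdifferentiableAt_iff.mp (hF τ')) τ

theorem cj_zero {F : ℍ → ℂ} (hF : IsZeroAtImInfty F) : IsZeroAtImInfty (injStar F) := by
  have h1 : Tendsto (fun w : ℍ => F (J • w)) atImInfty (𝓝 0) := hF.comp inj_tendsto_J
  have h2 := (Complex.continuous_conj.tendsto 0).comp h1
  rw [map_zero] at h2
  exact h2

/-- The conjugate cusp form. -/
noncomputable def cjForm (N : ℕ) [NeZero N] (f : CuspForm (Gamma0 N) 2) :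
    CuspForm (Gamma0 N) 2 where
  toFun := injStar f
  slash_action_eq' := by
    rintro _ ⟨γ, hγ, rfl⟩
    have h1 : injStar (⇑f) ∣[(2 : ℤ)] γ = injStar (⇑f) := by
      rw [cj_slash]
      congr 1
      exact Fermat.Agent.S21.per_slash_eq N f (jConjSL γ) (jConjSL_mem_Gamma0 hγ)
    rw [ModularForm.SL_slash] at h1
    exact h1
  holo' := cj_mdiff (CuspFormClass.holo f)
  zero_at_cusps' := by
    intro c hc
    rw [Subgroup.IsArithmetic.isCusp_iff_isCusp_SL2Z] at hc
    rw [OnePoint.isZeroAt_iff_forall_SL2Z hc]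
    intro γ _
    rw [cj_slash]
    exact cj_zero (CuspFormClass.zero_at_infty_slash f (jConjSL γ))

theorem cjForm_apply (N : ℕ) [NeZero N] (f : CuspForm (Gamma0 N) 2) (τ : ℍ) :
    cjForm N f τ = conj (f (J • τ)) := rfl

/-- `conj (q (-conj τ)) = q τ`. -/
theorem cj_qParam (τ : ℍ) : conj (𝕢 1 ((J • τ : ℍ) : ℂ)) = 𝕢 1 (τ : ℂ) := by
  rw [coe_J_smul]
  unfold Function.Periodic.qParam
  rw [← Complex.exp_conj]
  congr 1
  simp only [map_div₀, map_mul, map_neg, Complex.conj_conj, Complex.conj_ofReal, Complex.conj_I,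
    map_ofNat]
  ring

theorem cj_hasSum (N : ℕ) [NeZero N] (f : CuspForm (Gamma0 N) 2) (τ : ℍ) :
    HasSum (fun m : ℕ => (qExpansion 1 f).coeff m • 𝕢 1 (τ : ℂ) ^ m) (f τ) := by
  have hΓ := one_mem_strictPeriods N
  have : Fact (IsCusp OnePoint.infty (Gamma0 N : Subgroup (GL (Fin 2) ℝ))) :=
    ⟨Subgroup.isCusp_of_mem_strictPeriods one_pos hΓ⟩
  exact τ.hasSum_qExpansion one_pos (SlashInvariantFormClass.periodic_comp_ofComplex f hΓ)
    (CuspFormClass.holo f) (ModularFormClass.bdd_at_infty f)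

theorem cjForm_qCoeff (N : ℕ) [NeZero N] (f : CuspForm (Gamma0 N) 2) (n : ℕ) :
    ModularFormClass.qCoeff (cjForm N f) n = conj (ModularFormClass.qCoeff f n) := by
  have hΓ := one_mem_strictPeriods N
  have hsum : ∀ τ : ℍ, HasSum (fun m : ℕ => conj ((qExpansion 1 f).coeff m) • 𝕢 1 (τ : ℂ) ^ m)
      (cjForm N f τ) := by
    intro τ
    have h1 := (cj_hasSum N f (J • τ)).star
    rw [cjForm_apply]
    convert h1 using 2 with m
    · simp only [smul_eq_mul, star_mul', star_pow]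
      rw [← starRingEnd_apply, ← starRingEnd_apply, cj_qParam]
    · rfl
  have := ModularFormClass.qExpansion_coeff_unique one_pos hΓ (f := cjForm N f) hsum n
  simp only [ModularFormClass.qCoeff]
  exact this.symm

/-- The cusp form with complex-conjugate `q`-coefficients. -/
theorem exists_conjForm (N : ℕ) [NeZero N] (f : CuspForm (Gamma0 N) 2) :
    ∃ g : CuspForm (Gamma0 N) 2,
      ∀ n, ModularFormClass.qCoeff g n = starRingEnd ℂ (ModularFormClass.qCoeff f n) :=
  ⟨cjForm N f, cjForm_qCoeff N f⟩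

end Fermat.Agent.S23
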