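import Mathlib
import Fermat.Prelude.Def_CuspForm_HeckeAlgebra
import Fermat.Prelude.Def_CuspForm_IntegralStructure
import Fermat.Prelude.Def_ModularCurve_PeriodHomPair
import Fermat.Prelude.Def_ModularCurve_GenusNumerics
import Fermat.Agent.S21.Period

/-!
# S23 (integral structure of `S₂(Γ₀(N))`): basic definitions  (OWNER: helper8)  — FROZEN

Route: Hecke duality.  `V = S₂(Γ₀(N))`, `𝕋 = hecke N = heckeAlgebra N 2 ∅ ⊂ End_ℂ V`
(finite over `ℤ` by S22), `a1 : V → ℂ` the first `q`-coefficient.

* `Coeff`   : every `a_n` is `a1 ∘ t` for some `t ∈ 𝕋`.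
* `Duality` : abstract duality: if `ℤ`-independent families of `𝕋` are `ℂ`-independent then `V`
              is spanned by `{f | ∀ t ∈ 𝕋, a1 (t f) ∈ ℤ}`.
* `ConjAbs`, `Conj` : complex conjugation of `q`-coefficients reduces `ℂ`-independence to
              `ℝ`-independence.
* `RealInd`, `MatInd` : `ℝ`-independence from a `𝕋`-stable separating lattice in `V*` with an
              `ℝ`-independent `ℤ`-basis.
* `PerBasic`, `Bridge`, `PerReal`, `PerRank`, `PerIndep` : the period lattice is such a lattice
              (Eichler–Shimura: S21 + S20).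
-/

set_option autoImplicit false

namespace Fermat.Agent.S23

open CongruenceSubgroup ModularCurve ModularCurve.Period UpperHalfPlane
open scoped MatrixGroups

/-- `ℝ`-linear independence of a finite family in a `ℂ`-module, stated concretely. -/
def RealIndep {M : Type*} [AddCommGroup M] [Module ℂ M] {r : ℕ} (b : Fin r → M) : Prop :=
  ∀ c : Fin r → ℝ, ∑ i, ((c i : ℝ) : ℂ) • b i = 0 → ∀ i, c i = 0

/-- The full Hecke algebra of weight `2` and level `N` (all `T_ℓ`, `ℓ ∤ N`, and `U_q`, `q ∣ N`). -/
abbrev hecke (N : ℕ) [NeZero N] : Subalgebra ℤ (Module.End ℂ (CuspForm (Gamma0 N) 2)) :=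
  CuspForm.heckeAlgebra N 2 ∅

theorem one_mem_strictPeriods (N : ℕ) :
    (1 : ℝ) ∈ (Gamma0 N : Subgroup (GL (Fin 2) ℝ)).strictPeriods := by
  simp [CongruenceSubgroup.strictPeriods_Gamma0]

/-- The first `q`-coefficient as a linear functional. -/
noncomputable def a1 (N : ℕ) : CuspForm (Gamma0 N) 2 →ₗ[ℂ] ℂ where
  toFun f := ModularFormClass.qCoeff f 1
  map_add' f g := by
    simp only [ModularFormClass.qCoeff]
    rw [FunLike.coe_add, ModularForm.qExpansion_add one_pos (one_mem_strictPeriods N) f g,
      map_add]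
  map_smul' c f := by
    simp only [ModularFormClass.qCoeff, RingHom.id_apply]
    rw [FunLike.coe_smul, ModularForm.qExpansion_smul one_pos (one_mem_strictPeriods N) c f,
      PowerSeries.coeff_smul]

@[simp] theorem a1_apply (N : ℕ) (f : CuspForm (Gamma0 N) 2) :
    a1 N f = ModularFormClass.qCoeff f 1 := rfl

/-- The period functional `π_γ : f ↦ ∫_γ f` (normalised as in the prelude `periodMap`). -/
noncomputable def perFun (N : ℕ) [NeZero N] (γ : Gamma0 N) :
    Module.Dual ℂ (CuspForm (Gamma0 N) 2) where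
  toFun f := periodMap N f (Additive.ofMul γ)
  map_add' f g := by
    obtain ⟨pml, hpml⟩ := Fermat.Agent.S21.es_existsPeriodMapLinear N
    rw [← hpml, ← hpml, ← hpml, map_add]
    rfl
  map_smul' c f := by
    obtain ⟨pml, hpml⟩ := Fermat.Agent.S21.es_existsPeriodMapLinear N
    rw [← hpml, ← hpml, map_smul]
    rfl

@[simp] theorem perFun_apply (N : ℕ) [NeZero N] (γ : Gamma0 N) (f : CuspForm (Gamma0 N) 2) :
    perFun N γ f = periodMap N f (Additive.ofMul γ) := rfl

/-- The period lattice `P ⊂ V*`: the `ℤ`-span of all period functionals. -/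
noncomputable def perLattice (N : ℕ) [NeZero N] :
    Submodule ℤ (Module.Dual ℂ (CuspForm (Gamma0 N) 2)) :=
  Submodule.span ℤ (Set.range (perFun N))

theorem perFun_mem (N : ℕ) [NeZero N] (γ : Gamma0 N) : perFun N γ ∈ perLattice N :=
  Submodule.subset_span ⟨γ, rfl⟩

end Fermat.Agent.S23
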